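import Mathlib

/-!
# S28 helper (helper927): abstract block-norm lemma and unit trick

Setting: `κ` a field, `R` a finite-dimensional commutative `κ`-algebra, `Ω` a field over `κ`,
`ρ : Θ → (R →ₐ[κ] Ω)` an injective finite family with `finrank κ R ≤ card Θ`.
Then `card Θ = finrank κ R`, `∏ θ, ρ θ y = algebraMap κ Ω (Algebra.norm κ y)`, the `ρ θ` are
jointly injective, every "block" `{θ | ker (ρ θ) = ker (ρ θ₀)}` has an idempotent, and block
products of units that are integral (with integral inverse) over an integrally closed domain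
`A₀` with fraction field `κ` are units of `A₀`.
-/

set_option autoImplicit false
set_option linter.unusedSectionVars false

namespace Fermat.Agent.S28.H927

open Finset Matrix

section BlockNorm

variable {κ R Ω Θ : Type*} [Field κ] [CommRing R] [Algebra κ R]
  [Field Ω] [Algebra κ Ω] [Fintype Θ]

/-- Dedekind independence for an injective family of algebra homs. -/
theorem linearIndependent_algHom_family (ρ : Θ → (R →ₐ[κ] Ω)) (hρ : Function.Injective ρ) :
    LinearIndependent Ω (fun θ => (ρ θ : R → Ω)) := by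
  have h := linearIndependent_monoidHom R Ω
  have hinj : Function.Injective (fun θ => ((ρ θ : R →ₐ[κ] Ω) : R →* Ω)) := by
    intro a b hab
    apply hρ
    ext x
    exact congrArg (fun f : R →* Ω => f x) hab
  exact h.comp _ hinj

variable {ι : Type*} [Fintype ι] [DecidableEq ι]

theorem algHom_eq_sum_repr (b : Module.Basis ι κ R) (f : R →ₐ[κ] Ω) (r : R) :
    f r = ∑ i, algebraMap κ Ω (b.repr r i) * f (b i) := by
  conv_lhs => rw [← b.sum_repr r]
  rw [map_sum]
  refine Finset.sum_congr rfl fun i _ => ?_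
  rw [Algebra.smul_def, map_mul, AlgHom.commutes]

/-- The evaluation vectors `(ρ θ (b i))_i` are linearly independent over `Ω`. -/
theorem linearIndependent_evalVec (b : Module.Basis ι κ R) (ρ : Θ → (R →ₐ[κ] Ω))
    (hρ : Function.Injective ρ) :
    LinearIndependent Ω (fun θ => (fun i => ρ θ (b i) : ι → Ω)) := by
  classical
  rw [Fintype.linearIndependent_iff]
  intro g hg
  have hind := linearIndependent_algHom_family ρ hρ
  rw [Fintype.linearIndependent_iff] at hind
  apply hind g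
  funext r
  have hgi : ∀ i, ∑ θ, g θ * ρ θ (b i) = 0 := by
    intro i
    have := congrFun hg i
    simpa [Finset.sum_apply, Pi.smul_apply, smul_eq_mul] using this
  simp only [Finset.sum_apply, Pi.smul_apply, smul_eq_mul, Pi.zero_apply]
  calc ∑ θ, g θ * ρ θ r
      = ∑ θ, g θ * ∑ i, algebraMap κ Ω (b.repr r i) * ρ θ (b i) := by
        refine Finset.sum_congr rfl fun θ _ => ?_
        rw [algHom_eq_sum_repr b (ρ θ) r]
    _ = ∑ i, algebraMap κ Ω (b.repr r i) * ∑ θ, g θ * ρ θ (b i) := by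
        simp only [Finset.mul_sum]
        rw [Finset.sum_comm]
        refine Finset.sum_congr rfl fun i _ => Finset.sum_congr rfl fun θ _ => ?_
        ring
    _ = 0 := by simp [hgi]

theorem card_le_card_basis (b : Module.Basis ι κ R) (ρ : Θ → (R →ₐ[κ] Ω))
    (hρ : Function.Injective ρ) : Fintype.card Θ ≤ Fintype.card ι := by
  have h := (linearIndependent_evalVec b ρ hρ).fintype_card_le_finrank
  simpa using h

/-- The square evaluation matrix `V i i' = ρ (e i') (b i)`. -/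
noncomputable def evalMatrix (b : Module.Basis ι κ R) (ρ : Θ → (R →ₐ[κ] Ω)) (e : ι ≃ Θ) : Matrix ι ι Ω :=
  Matrix.of fun i i' => ρ (e i') (b i)

theorem evalMatrix_det_ne_zero (b : Module.Basis ι κ R) (ρ : Θ → (R →ₐ[κ] Ω))
    (hρ : Function.Injective ρ) (e : ι ≃ Θ) : (evalMatrix b ρ e).det ≠ 0 := by
  have hli : LinearIndependent Ω (evalMatrix b ρ e).col := by
    have h := linearIndependent_evalVec b ρ hρ
    have h2 := h.comp e e.injective
    convert h2 using 1
    funext i' i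
    rfl
  have hu := Matrix.linearIndependent_cols_iff_isUnit.mp hli
  exact ((Matrix.isUnit_iff_isUnit_det _).mp hu).ne_zero

theorem leftMul_transpose_mul_evalMatrix (b : Module.Basis ι κ R) (ρ : Θ → (R →ₐ[κ] Ω))
    (e : ι ≃ Θ) (y : R) :
    ((Algebra.leftMulMatrix b y).map (algebraMap κ Ω))ᵀ * evalMatrix b ρ e =
      evalMatrix b ρ e * Matrix.diagonal (fun i' => ρ (e i') y) := by
  ext j i'
  rw [Matrix.mul_apply, Matrix.mul_diagonal]
  simp only [Matrix.transpose_apply, Matrix.map_apply, evalMatrix, Matrix.of_apply,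
    Algebra.leftMulMatrix_eq_repr_mul]
  rw [← algHom_eq_sum_repr b (ρ (e i')) (y * b j), map_mul, mul_comm]

/-- (B2) for a basis and an equivalence `ι ≃ Θ`. -/
theorem prod_eq_algebraMap_norm_aux (b : Module.Basis ι κ R) (ρ : Θ → (R →ₐ[κ] Ω))
    (hρ : Function.Injective ρ) (e : ι ≃ Θ) (y : R) :
    ∏ θ, ρ θ y = algebraMap κ Ω (Algebra.norm κ y) := by
  have h := congrArg Matrix.det (leftMul_transpose_mul_evalMatrix b ρ e y)
  rw [Matrix.det_mul, Matrix.det_mul, Matrix.det_transpose, Matrix.det_diagonal,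
    mul_comm] at h
  have h2 := mul_left_cancel₀ (evalMatrix_det_ne_zero b ρ hρ e) h
  rw [Algebra.norm_eq_matrix_det b, RingHom.map_det, RingHom.mapMatrix_apply, h2]
  exact (Equiv.prod_comp e (fun θ => ρ θ y)).symm

/-- (B3) for a basis and an equivalence `ι ≃ Θ`. -/
theorem eq_zero_of_forall_apply_eq_zero_aux (b : Module.Basis ι κ R) (ρ : Θ → (R →ₐ[κ] Ω))
    (hρ : Function.Injective ρ) (e : ι ≃ Θ) (y : R) (hy : ∀ θ, ρ θ y = 0) : y = 0 := by
  have hv : Matrix.vecMul (fun i => algebraMap κ Ω (b.repr y i)) (evalMatrix b ρ e) = 0 := by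
    funext i'
    simp only [Matrix.vecMul, dotProduct, evalMatrix, Matrix.of_apply, Pi.zero_apply]
    rw [← algHom_eq_sum_repr b (ρ (e i')) y, hy]
  have h0 := Matrix.eq_zero_of_vecMul_eq_zero (evalMatrix_det_ne_zero b ρ hρ e) hv
  have hrepr : b.repr y = 0 := by
    ext i
    have := congrFun h0 i
    simpa using this
  exact (b.repr.map_eq_zero_iff).mp hrepr

end BlockNorm

section Main

variable {κ R Ω Θ : Type*} [Field κ] [CommRing R] [Algebra κ R] [Module.Finite κ R]
  [Field Ω] [Algebra κ Ω] [Fintype Θ]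

/-- (B1) the number of embeddings equals the dimension. -/
theorem card_eq_finrank (ρ : Θ → (R →ₐ[κ] Ω)) (hρ : Function.Injective ρ)
    (hcard : Module.finrank κ R ≤ Fintype.card Θ) :
    Fintype.card Θ = Module.finrank κ R := by
  classical
  refine le_antisymm ?_ hcard
  have h := card_le_card_basis (Module.finBasis κ R) ρ hρ
  simpa using h

/-- (B2) the product of all embeddings is the norm. -/
theorem prod_eq_algebraMap_norm (ρ : Θ → (R →ₐ[κ] Ω)) (hρ : Function.Injective ρ)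
    (hcard : Module.finrank κ R ≤ Fintype.card Θ) (y : R) :
    ∏ θ, ρ θ y = algebraMap κ Ω (Algebra.norm κ y) := by
  classical
  have hc := card_eq_finrank ρ hρ hcard
  have e : Fin (Module.finrank κ R) ≃ Θ := Fintype.equivOfCardEq (by simpa using hc.symm)
  exact prod_eq_algebraMap_norm_aux (Module.finBasis κ R) ρ hρ e y

/-- (B3) the embeddings are jointly injective. -/
theorem eq_zero_of_forall_apply_eq_zero (ρ : Θ → (R →ₐ[κ] Ω)) (hρ : Function.Injective ρ)
    (hcard : Module.finrank κ R ≤ Fintype.card Θ) (y : R) (hy : ∀ θ, ρ θ y = 0) : y = 0 := by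
  classical
  have hc := card_eq_finrank ρ hρ hcard
  have e : Fin (Module.finrank κ R) ≃ Θ := Fintype.equivOfCardEq (by simpa using hc.symm)
  exact eq_zero_of_forall_apply_eq_zero_aux (Module.finBasis κ R) ρ hρ e y hy

theorem eq_of_forall_apply_eq (ρ : Θ → (R →ₐ[κ] Ω)) (hρ : Function.Injective ρ)
    (hcard : Module.finrank κ R ≤ Fintype.card Θ) (y z : R) (hy : ∀ θ, ρ θ y = ρ θ z) :
    y = z := by
  have := eq_zero_of_forall_apply_eq_zero ρ hρ hcard (y - z)
    (fun θ => by rw [map_sub, hy θ, sub_self])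
  exact sub_eq_zero.mp this

/-- If all kernels coincide, each embedding is injective. -/
theorem injective_of_ker_eq (ρ : Θ → (R →ₐ[κ] Ω)) (hρ : Function.Injective ρ)
    (hcard : Module.finrank κ R ≤ Fintype.card Θ) (θ₀ : Θ)
    (hker : ∀ θ, RingHom.ker (ρ θ) = RingHom.ker (ρ θ₀)) : Function.Injective (ρ θ₀) := by
  rw [injective_iff_map_eq_zero]
  intro y hy
  refine eq_zero_of_forall_apply_eq_zero ρ hρ hcard y fun θ => ?_
  have : y ∈ RingHom.ker (ρ θ) := by rw [hker θ]; exact hy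
  exact this

/-- If all kernels coincide, `R` is a field. -/
theorem isField_of_ker_eq (ρ : Θ → (R →ₐ[κ] Ω)) (hρ : Function.Injective ρ)
    (hcard : Module.finrank κ R ≤ Fintype.card Θ) (θ₀ : Θ)
    (hker : ∀ θ, RingHom.ker (ρ θ) = RingHom.ker (ρ θ₀)) : IsField R := by
  have hinj := injective_of_ker_eq ρ hρ hcard θ₀ hker
  have : IsDomain R := hinj.isDomain (ρ θ₀ : R →+* Ω)
  have : IsArtinianRing R := IsArtinianRing.of_finite κ R
  exact IsArtinianRing.isField_of_isDomain R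

theorem ker_isMaximal (f : R →ₐ[κ] Ω) : (RingHom.ker f).IsMaximal := by
  have : IsArtinianRing R := IsArtinianRing.of_finite κ R
  have : (RingHom.ker f).IsPrime := RingHom.ker_isPrime f
  exact IsArtinianRing.isMaximal_of_isPrime _

/-- An element that is `1` modulo `ker (ρ θ₀)` and lies in every other kernel. -/
theorem exists_block_indicator (ρ : Θ → (R →ₐ[κ] Ω)) (θ₀ : Θ) :
    ∃ e : R, (∀ θ, RingHom.ker (ρ θ) = RingHom.ker (ρ θ₀) → ρ θ e = 1) ∧
      (∀ θ, RingHom.ker (ρ θ) ≠ RingHom.ker (ρ θ₀) → ρ θ e = 0) := by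
  classical
  have hex : ∀ θ, RingHom.ker (ρ θ) ≠ RingHom.ker (ρ θ₀) →
      ∃ a : R, a ∈ RingHom.ker (ρ θ) ∧ 1 - a ∈ RingHom.ker (ρ θ₀) := by
    intro θ hne
    have hcop := (ker_isMaximal (ρ θ)).coprime_of_ne (ker_isMaximal (ρ θ₀)) hne
    have h1 : (1 : R) ∈ RingHom.ker (ρ θ) ⊔ RingHom.ker (ρ θ₀) := by
      rw [hcop]; exact Submodule.mem_top
    obtain ⟨a, ha, m, hm, ham⟩ := Submodule.mem_sup.mp h1
    refine ⟨a, ha, ?_⟩
    rw [← ham, add_sub_cancel_left]
    exact hm
  choose! a ha1 ha2 using hex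
  refine ⟨∏ θ ∈ Finset.univ.filter (fun θ => RingHom.ker (ρ θ) ≠ RingHom.ker (ρ θ₀)), a θ,
    ?_, ?_⟩
  · intro θ h
    rw [map_prod]
    refine Finset.prod_eq_one fun θ' hθ' => ?_
    have hne := (Finset.mem_filter.mp hθ').2
    have h2 : 1 - a θ' ∈ RingHom.ker (ρ θ) := by rw [h]; exact ha2 θ' hne
    have h3 : ρ θ (1 - a θ') = 0 := h2
    rw [map_sub, map_one, sub_eq_zero] at h3
    exact h3.symm
  · intro θ h
    rw [map_prod]
    refine Finset.prod_eq_zero (i := θ) (Finset.mem_filter.mpr ⟨Finset.mem_univ _, h⟩) ?_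
    exact ha1 θ h

/-- (B4) the block idempotent. -/
theorem exists_block_idempotent (ρ : Θ → (R →ₐ[κ] Ω)) (hρ : Function.Injective ρ)
    (hcard : Module.finrank κ R ≤ Fintype.card Θ) (θ₀ : Θ) :
    ∃ e : R, e * e = e ∧ (∀ θ, RingHom.ker (ρ θ) = RingHom.ker (ρ θ₀) → ρ θ e = 1) ∧
      (∀ θ, RingHom.ker (ρ θ) ≠ RingHom.ker (ρ θ₀) → ρ θ e = 0) := by
  obtain ⟨e, he1, he0⟩ := exists_block_indicator ρ θ₀
  refine ⟨e, ?_, he1, he0⟩
  refine eq_of_forall_apply_eq ρ hρ hcard _ _ fun θ => ?_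
  rw [map_mul]
  by_cases h : RingHom.ker (ρ θ) = RingHom.ker (ρ θ₀)
  · rw [he1 θ h, mul_one]
  · rw [he0 θ h, mul_zero]

/-- Block product as a norm: for the block idempotent `e`,
`∏_{θ ∈ block} ρ θ x = algebraMap (norm (x * e + (1 - e)))`. -/
theorem block_prod_eq_norm (ρ : Θ → (R →ₐ[κ] Ω)) (hρ : Function.Injective ρ)
    (hcard : Module.finrank κ R ≤ Fintype.card Θ) (θ₀ : Θ) [DecidablePred
      (fun θ => RingHom.ker (ρ θ) = RingHom.ker (ρ θ₀))] (e : R)
    (he1 : ∀ θ, RingHom.ker (ρ θ) = RingHom.ker (ρ θ₀) → ρ θ e = 1)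
    (he0 : ∀ θ, RingHom.ker (ρ θ) ≠ RingHom.ker (ρ θ₀) → ρ θ e = 0) (x : R) :
    ∏ θ ∈ Finset.univ.filter (fun θ => RingHom.ker (ρ θ) = RingHom.ker (ρ θ₀)), ρ θ x =
      algebraMap κ Ω (Algebra.norm κ (x * e + (1 - e))) := by
  rw [← prod_eq_algebraMap_norm ρ hρ hcard, Finset.prod_filter]
  refine Finset.prod_congr rfl fun θ _ => ?_
  rw [map_add, map_mul, map_sub, map_one]
  split_ifs with h
  · rw [he1 θ h]; ring
  · rw [he0 θ h]; ring

/-- (B5') block products lie in the image of `κ`. -/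
theorem block_prod_mem_range (ρ : Θ → (R →ₐ[κ] Ω)) (hρ : Function.Injective ρ)
    (hcard : Module.finrank κ R ≤ Fintype.card Θ) (θ₀ : Θ) [DecidablePred
      (fun θ => RingHom.ker (ρ θ) = RingHom.ker (ρ θ₀))] (x : R) :
    ∏ θ ∈ Finset.univ.filter (fun θ => RingHom.ker (ρ θ) = RingHom.ker (ρ θ₀)), ρ θ x ∈
      (algebraMap κ Ω).range := by
  obtain ⟨e, -, he1, he0⟩ := exists_block_idempotent ρ hρ hcard θ₀
  exact ⟨_, (block_prod_eq_norm ρ hρ hcard θ₀ e he1 he0 x).symm⟩

end Main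

section UnitTrick

variable {A₀ κ R Ω Θ : Type*} [CommRing A₀] [IsDomain A₀] [IsIntegrallyClosed A₀]
  [Field κ] [Algebra A₀ κ] [IsFractionRing A₀ κ]
  [CommRing R] [Algebra κ R] [Module.Finite κ R] [Algebra A₀ R] [IsScalarTower A₀ κ R]
  [Field Ω] [Algebra κ Ω] [Algebra A₀ Ω] [IsScalarTower A₀ κ Ω] [Fintype Θ]

theorem isIntegral_of_mul_self_eq {e : R} (he : e * e = e) : IsIntegral A₀ e := by
  refine ⟨Polynomial.X ^ 2 - Polynomial.X, ?_, ?_⟩
  · exact Polynomial.monic_X_pow_sub (by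
      rw [Polynomial.degree_X]; exact_mod_cast (by norm_num : (1 : ℕ) < 2))
  · simp [pow_two, he]

/-- The norm of an element integral over `A₀` lies in `A₀` (in the étale situation). -/
theorem exists_algebraMap_eq_norm (ρ : Θ → (R →ₐ[κ] Ω)) (hρ : Function.Injective ρ)
    (hcard : Module.finrank κ R ≤ Fintype.card Θ) {y : R} (hy : IsIntegral A₀ y) :
    ∃ c : A₀, algebraMap A₀ κ c = Algebra.norm κ y := by
  have h1 : IsIntegral A₀ (∏ θ, ρ θ y) :=
    IsIntegral.prod _ fun θ _ => hy.map ((ρ θ).restrictScalars A₀)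
  rw [prod_eq_algebraMap_norm ρ hρ hcard,
    isIntegral_algebraMap_iff (algebraMap κ Ω).injective] at h1
  exact IsIntegrallyClosed.isIntegral_iff.mp h1

/-- (B5) UNIT TRICK: the block product of a unit `x` of `R` such that `x` and `x⁻¹` are integral
over the integrally closed domain `A₀` is (the image of) a unit of `A₀`. -/
theorem block_prod_eq_unit (ρ : Θ → (R →ₐ[κ] Ω)) (hρ : Function.Injective ρ)
    (hcard : Module.finrank κ R ≤ Fintype.card Θ) (θ₀ : Θ) [DecidablePred
      (fun θ => RingHom.ker (ρ θ) = RingHom.ker (ρ θ₀))] {x x' : R} (hxx' : x * x' = 1)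
    (hx : IsIntegral A₀ x) (hx' : IsIntegral A₀ x') :
    ∃ c : A₀ˣ, ∏ θ ∈ Finset.univ.filter (fun θ => RingHom.ker (ρ θ) = RingHom.ker (ρ θ₀)),
      ρ θ x = algebraMap A₀ Ω (c : A₀) := by
  obtain ⟨e, hee, he1, he0⟩ := exists_block_idempotent ρ hρ hcard θ₀
  have hie : IsIntegral A₀ e := isIntegral_of_mul_self_eq hee
  have hy : IsIntegral A₀ (x * e + (1 - e)) := (hx.mul hie).add (isIntegral_one.sub hie)
  have hy' : IsIntegral A₀ (x' * e + (1 - e)) := (hx'.mul hie).add (isIntegral_one.sub hie)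
  have hyy' : (x * e + (1 - e)) * (x' * e + (1 - e)) = 1 := by
    have h1 : (x * e + (1 - e)) * (x' * e + (1 - e)) =
        (x * x') * (e * e) + (x + x') * (e - e * e) + (1 - 2 * e + e * e) := by ring
    rw [h1, hxx', hee]; ring
  obtain ⟨c, hc⟩ := exists_algebraMap_eq_norm (A₀ := A₀) ρ hρ hcard hy
  obtain ⟨c', hc'⟩ := exists_algebraMap_eq_norm (A₀ := A₀) ρ hρ hcard hy'
  have hcc' : c * c' = 1 := by
    apply IsFractionRing.injective A₀ κ
    rw [map_mul, hc, hc', ← map_mul, hyy', map_one, map_one]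
  refine ⟨⟨c, c', hcc', by rw [mul_comm]; exact hcc'⟩, ?_⟩
  rw [block_prod_eq_norm ρ hρ hcard θ₀ e he1 he0 x, ← hc, ← IsScalarTower.algebraMap_apply]

end UnitTrick

section PolynomialCase

variable {k₀ κ R Ω Θ : Type*} [Field k₀]
  [Field κ] [Algebra (Polynomial k₀) κ] [IsFractionRing (Polynomial k₀) κ]
  [CommRing R] [Algebra κ R] [Module.Finite κ R] [Algebra (Polynomial k₀) R]
  [IsScalarTower (Polynomial k₀) κ R]
  [Field Ω] [Algebra κ Ω] [Algebra (Polynomial k₀) Ω] [IsScalarTower (Polynomial k₀) κ Ω]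
  [Fintype Θ]

/-- (B6) over a polynomial ring `k₀[X]` the block product of such a unit is a nonzero constant. -/
theorem block_prod_eq_const (ρ : Θ → (R →ₐ[κ] Ω)) (hρ : Function.Injective ρ)
    (hcard : Module.finrank κ R ≤ Fintype.card Θ) (θ₀ : Θ) [DecidablePred
      (fun θ => RingHom.ker (ρ θ) = RingHom.ker (ρ θ₀))] {x x' : R} (hxx' : x * x' = 1)
    (hx : IsIntegral (Polynomial k₀) x) (hx' : IsIntegral (Polynomial k₀) x') :
    ∃ r : k₀, r ≠ 0 ∧
      ∏ θ ∈ Finset.univ.filter (fun θ => RingHom.ker (ρ θ) = RingHom.ker (ρ θ₀)), ρ θ x =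
        algebraMap (Polynomial k₀) Ω (Polynomial.C r) := by
  obtain ⟨c, hc⟩ := block_prod_eq_unit (A₀ := Polynomial k₀) ρ hρ hcard θ₀ hxx' hx hx'
  obtain ⟨r, hr, hrc⟩ := Polynomial.isUnit_iff.mp c.isUnit
  exact ⟨r, hr.ne_zero, by rw [hc, hrc]⟩

end PolynomialCase

end Fermat.Agent.S28.H927
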